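/-
Programme MAZ (S15), moduli side (architect helper86, report 1112), brick **BR3** (helper52), file 1:
**values of modular functions at the place of `X₀(N)` cut out by a point `τ` of the upper half plane**.

Setting: `F = FF N = ℚbar(j(q^d) : d ∣ N) ⊆ ℚbar((q))`, `τ ∈ ℍ` with `j(τ) = ι(a)`, `a ∈ ℚbar`
(`ι = iotaK : ℚbar → ℂ`).  `placeAt N τ a ha : Place ℚbar F` is the point place
`X0.PointPlacesD.pointPlaceD (realizeData N) τ a ha 1` (helper23's places from points).

A Laurent series `f ∈ ℚbar((q))` that is *nice* (`RED.BASE.QExpMem19.IsNice N f g`: the `q`-expansion of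
a holomorphic `Γ₀(N)`-invariant `g : ℍ → ℂ` with `ℚbar`-expansions at all cusps) lies in `F`, and

* `mem_placeAt_of_isNice` : `f` is regular at `placeAt N τ a ha`;
* `isVal_iff_of_isNice`   : `IsVal (placeAt ..) f c ↔ g τ = ι c`  (`MW.Bridge34.IsVal`: `f ≡ c` modulo
  the maximal ideal of the place), in particular
* `isVal_of_isNice`, and `exists_value_of_isNice` : `∃ c : ℚbar, g τ = ι c ∧ IsVal (placeAt ..) f c`
  — the value `g τ` is AUTOMATICALLY algebraic (no modular polynomial needed);
* the same for elements `u` of `R = ℚbar[j_d]` with their realisation `realize N u`.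
-/
import Mathlib
import Fermat.Agent.X0.PointPlacesD
import Fermat.Agent.X0.PointPlacesPos
import Fermat.Agent.X0.RealizeData
import Fermat.Agent.X0.HasCanDivInst
import Fermat.Agent.RED.BASE.QExpMem19
import Fermat.Agent.ES.RED.PlaceValue13
import Fermat.Agent.MW.Bridge34.PlaceHom

set_option autoImplicit false
set_option linter.unusedSectionVars false

open UpperHalfPlane AlgebraicCurve
open scoped MatrixGroups

noncomputable section

namespace Fermat.Agent.MAZ.BR3_52

open Fermat.Agent.X0 Fermat.Agent.X0.PointPlaces Fermat.Agent.X0.PointPlacesD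
  Fermat.Agent.X0.PointPlacesPos Fermat.Agent.RED.BASE.QExpMem19 Fermat.Agent.MW.Bridge34

variable (N : ℕ) [NeZero N]

/-- **The place of `X₀(N)` at the point `τ`** (with algebraic `j`-invariant `j(τ) = ι a`). -/
def placeAt (τ : ℍ) (a : Kbar) (ha : jFun τ = iotaK a) : Place Kbar (FF N) :=
  pointPlaceD (realizeData N) τ a ha 1

/-- its multiplicity (the ramification index of `ℍ → X₀(N)` at `τ`). -/
def multAt (τ : ℍ) (a : Kbar) (ha : jFun τ = iotaK a) : ℕ :=
  pointMultD (realizeData N) τ a ha 1

variable {N} {τ : ℍ} {a : Kbar} {ha : jFun τ = iotaK a}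

theorem isPointPlace_placeAt :
    IsPointPlace (realize N) 1 τ (placeAt N τ a ha) (multAt N τ a ha) :=
  isPointPlace_pointPlaceD (realizeData N) τ a ha 1

theorem isRealize_realize : IsRealize (realize N) := isRealize (realizeData N)

theorem one_inv_smul (z : ℍ) : (1 : SL(2, ℤ))⁻¹ • z = z := by
  rw [inv_one, one_smul]

/-- `0 < ord_{placeAt} (j - a)`. -/
theorem ord_jF_sub_pos :
    0 < (placeAt N τ a ha).ord (jF N - algebraMap Kbar (FF N) a) :=
  pointPlaceD_ord_pos (realizeData N) τ a ha 1

/-! ### quotients of elements of `R` -/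

section Quot

variable {v : Place Kbar (FF N)} {m : ℕ}

/-- `toNat` of the order of a product with a function vanishing at the point. -/
theorem toNat_ordH_lt {F₁ F₂ G : ℍ → ℂ} (h₂ : F₂ ∈ HolH) (hG : G ∈ HolH) (hF : F₁ = F₂ * G)
    (htop : ordH F₁ τ ≠ ⊤) (hz : G τ = 0) :
    (ordH F₂ τ).toNat < (ordH F₁ τ).toNat := by
  have hsum : ordH F₁ τ = ordH F₂ τ + ordH G τ := by rw [hF]; exact ordH_mul h₂ hG τ
  have h2top : ordH F₂ τ ≠ ⊤ := by
    intro h; apply htop; rw [hsum, h, top_add]
  have hGtop : ordH G τ ≠ ⊤ := by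
    intro h; apply htop; rw [hsum, h, add_top]
  have hG0 : ordH G τ ≠ 0 := fun h => ((ordH_eq_zero_iff hG τ).mp h) hz
  have hGpos : 0 < (ordH G τ).toNat := by
    rw [Nat.pos_iff_ne_zero]
    intro h'
    rcases (ENat.toNat_eq_zero).mp h' with h'' | h''
    · exact hG0 h''
    · exact hGtop h''
  rw [hsum, ENat.toNat_add h2top hGtop]
  omega

/-- `toNat` of the order of a product with a function NOT vanishing at the point. -/
theorem toNat_ordH_eq {F₁ F₂ G : ℍ → ℂ} (h₂ : F₂ ∈ HolH) (hG : G ∈ HolH) (hF : F₁ = F₂ * G)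
    (hz : G τ ≠ 0) : (ordH F₁ τ).toNat = (ordH F₂ τ).toNat := by
  have hsum : ordH F₁ τ = ordH F₂ τ + ordH G τ := by rw [hF]; exact ordH_mul h₂ hG τ
  rw [hsum, (ordH_eq_zero_iff hG τ).mpr hz, add_zero]

/-- `toNat` of the order of a product, inequality. -/
theorem toNat_ordH_le {F₁ F₂ G : ℍ → ℂ} (h₂ : F₂ ∈ HolH) (hG : G ∈ HolH) (hF : F₁ = F₂ * G)
    (htop : ordH F₁ τ ≠ ⊤) : (ordH F₂ τ).toNat ≤ (ordH F₁ τ).toNat := by
  by_cases hz : G τ = 0
  · exact (toNat_ordH_lt h₂ hG hF htop hz).le
  · exact (toNat_ordH_eq h₂ hG hF hz).ge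

/-- **Regularity**: if `Θ r = Θ s · g` with `g` holomorphic then `r / s` is regular at the point
place. -/
theorem div_mem_of_realize (h : IsPointPlace (realize N) 1 τ v m) {r s : Rsub N} (hs : s ≠ 0)
    {g : ℍ → ℂ} (hg : g ∈ HolH) (hfun : ∀ z, realize N r z = realize N s z * g z) :
    (r : FF N) / (s : FF N) ∈ v.toValuationSubring := by
  by_cases hr : r = 0
  · rw [hr, ZeroMemClass.coe_zero, zero_div]; exact v.toValuationSubring.zero_mem
  apply FF.ffp_mem_of_ord_nonneg
  have hm : (0 : ℤ) < m := by exact_mod_cast h.1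
  have h1 := ord_div' h isRealize_realize hr hs
  rw [one_inv_smul] at h1
  have hle : (ordH (realize N s) τ).toNat ≤ (ordH (realize N r) τ).toNat :=
    toNat_ordH_le (realize_mem_HolH N s) hg (funext hfun)
      (ordH_ne_top (realize_mem_HolH N r)
        (fun h0 => hr (realize_injective N (by rw [h0, map_zero]))) τ)
  have h2 : (0 : ℤ) ≤ (m : ℤ) * v.ord ((r : FF N) / (s : FF N)) := by
    rw [h1]
    have : ((ordH (realize N s) τ).toNat : ℤ) ≤ ((ordH (realize N r) τ).toNat : ℤ) := by
      exact_mod_cast hle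
    omega
  by_contra hneg
  have hlt : v.ord ((r : FF N) / (s : FF N)) < 0 := not_le.mp hneg
  have := mul_neg_of_pos_of_neg hm hlt
  omega

/-- **Values**: if `Θ r = Θ s · g` with `g` holomorphic, then `r / s` has the value `c` at the
point place iff `g τ = ι c`. -/
theorem isVal_div_iff_of_realize (h : IsPointPlace (realize N) 1 τ v m) {r s : Rsub N}
    (hs : s ≠ 0) {g : ℍ → ℂ} (hg : g ∈ HolH)
    (hfun : ∀ z, realize N r z = realize N s z * g z) (c : Kbar) :
    IsVal v ((r : FF N) / (s : FF N)) c ↔ g τ = iotaK c := by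
  have hm : (0 : ℤ) < m := by exact_mod_cast h.1
  have hsF : (s : FF N) ≠ 0 := fun h0 => hs (Subtype.ext h0)
  -- `u = r - c s`
  set u : Rsub N := r - algebraMap Kbar (Rsub N) c * s with hu
  have huF : (u : FF N) = (r : FF N) - algebraMap Kbar (FF N) c * (s : FF N) := rfl
  have hdiv : (r : FF N) / (s : FF N) - algebraMap Kbar (FF N) c = (u : FF N) / (s : FF N) := by
    rw [huF, sub_div, mul_div_assoc, div_self hsF, mul_one]
  -- the realisation of `u`
  have hG : (fun z => g z - iotaK c) ∈ HolH :=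
    HolH.sub_mem hg (HolH.algebraMap_mem (iotaK c))
  have hΘu : realize N u = realize N s * fun z => g z - iotaK c := by
    funext z
    have h1 : realize N u z = realize N r z - iotaK c * realize N s z := by
      rw [hu, map_sub, map_mul, realize_algebraMap]
      rfl
    rw [h1, hfun z]
    show _ = realize N s z * (g z - iotaK c)
    ring
  rw [isVal_iff_ord, hdiv]
  by_cases hu0 : u = 0
  · -- `r = c s`
    have h0 : realize N s * (fun z => g z - iotaK c) = 0 := by rw [← hΘu, hu0, map_zero]
    have hs0 : realize N s ≠ 0 := fun h0 => hs (realize_injective N (by rw [h0, map_zero]))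
    have hG0 : (fun z => g z - iotaK c) = 0 :=
      (mul_eq_zero_HolH (realize_mem_HolH N s) hG h0).resolve_left hs0
    have hgc : g τ = iotaK c := sub_eq_zero.mp (congrFun hG0 τ)
    constructor
    · exact fun _ => hgc
    · intro _
      left
      have : (r : FF N) / (s : FF N) - algebraMap Kbar (FF N) c = 0 := by
        rw [hdiv, hu0, ZeroMemClass.coe_zero, zero_div]
      exact sub_eq_zero.mp this
  · have huF0 : (u : FF N) ≠ 0 := fun h0 => hu0 (Subtype.ext h0)
    have hne : (r : FF N) / (s : FF N) ≠ algebraMap Kbar (FF N) c := by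
      intro h0
      have : (u : FF N) / (s : FF N) = 0 := by rw [← hdiv, h0, sub_self]
      rcases div_eq_zero_iff.mp this with h1 | h1
      · exact huF0 h1
      · exact hsF h1
    have h1 := ord_div' h isRealize_realize hu0 hs
    rw [one_inv_smul] at h1
    have htop : ordH (realize N u) τ ≠ ⊤ :=
      ordH_ne_top (realize_mem_HolH N u)
        (fun h0 => hu0 (realize_injective N (by rw [h0, map_zero]))) τ
    constructor
    · rintro (h0 | hpos)
      · exact absurd h0 hne
      · by_contra hgc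
        have hz : (fun z => g z - iotaK c) τ ≠ 0 := fun h0 => hgc (sub_eq_zero.mp h0)
        have heq := toNat_ordH_eq (realize_mem_HolH N s) hG hΘu hz
        rw [heq, sub_self] at h1
        have := mul_pos hm hpos
        omega
    · intro hgc
      right
      have hz : (fun z => g z - iotaK c) τ = 0 := sub_eq_zero.mpr hgc
      have hlt := toNat_ordH_lt (realize_mem_HolH N s) hG hΘu htop hz
      have hlt' : ((ordH (realize N s) τ).toNat : ℤ) < ((ordH (realize N u) τ).toNat : ℤ) := by
        exact_mod_cast hlt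
      by_contra hneg
      have hle : v.ord ((u : FF N) / (s : FF N)) ≤ 0 := not_lt.mp hneg
      have := mul_nonpos_of_nonneg_of_nonpos hm.le hle
      omega

end Quot

/-! ### nice series -/

section Nice

variable {f : LaurentSeries Kbar} {g : ℍ → ℂ}

/-- a nice series as a quotient of elements of `R`. -/
theorem exists_div_of_isNice (h : IsNice N f g) :
    ∃ r s : Rsub N, s ≠ 0 ∧ (⟨f, mem_of_isNice h⟩ : FF N) = (r : FF N) / (s : FF N) ∧
      ∀ z, realize N r z = realize N s z * g z := by
  obtain ⟨r, s, hs, hw, hfun⟩ := exists_fraction_of_isNice h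
  have hsF : (s : FF N) ≠ 0 := fun h0 => hs (Subtype.ext h0)
  exact ⟨r, s, hs, by rw [← hw, mul_div_assoc, div_self hsF, mul_one], hfun⟩

/-- **Nice functions are regular at point places.** -/
theorem mem_placeAt_of_isNice (h : IsNice N f g) (τ : ℍ) (a : Kbar) (ha : jFun τ = iotaK a) :
    (⟨f, mem_of_isNice h⟩ : FF N) ∈ (placeAt N τ a ha).toValuationSubring := by
  obtain ⟨r, s, hs, hw, hfun⟩ := exists_div_of_isNice h
  rw [hw]
  exact div_mem_of_realize isPointPlace_placeAt hs h.hol hfun

/-- **The value of a nice function at a point place is its analytic value.** -/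
theorem isVal_iff_of_isNice (h : IsNice N f g) (τ : ℍ) (a : Kbar) (ha : jFun τ = iotaK a)
    (c : Kbar) :
    IsVal (placeAt N τ a ha) (⟨f, mem_of_isNice h⟩ : FF N) c ↔ g τ = iotaK c := by
  obtain ⟨r, s, hs, hw, hfun⟩ := exists_div_of_isNice h
  rw [hw]
  exact isVal_div_iff_of_realize isPointPlace_placeAt hs h.hol hfun c

theorem isVal_of_isNice (h : IsNice N f g) (τ : ℍ) (a : Kbar) (ha : jFun τ = iotaK a)
    (c : Kbar) (hc : g τ = iotaK c) :
    IsVal (placeAt N τ a ha) (⟨f, mem_of_isNice h⟩ : FF N) c :=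
  (isVal_iff_of_isNice h τ a ha c).mpr hc

/-- every element regular at a place of `FF N` has a value there. -/
theorem exists_isVal_of_mem (v : Place Kbar (FF N)) {y : FF N} (hy : y ∈ v.toValuationSubring) :
    ∃ c : Kbar, IsVal v y c := by
  refine ⟨Fermat.Agent.ES.RED.PlaceValue13.valueHom (HasCanDivInst.isGen N) v ⟨y, hy⟩, ?_⟩
  rw [isVal_iff_mem_maximalIdeal hy]
  exact Fermat.Agent.ES.RED.PlaceValue13.sub_valueHom_mem (HasCanDivInst.isGen N) v ⟨y, hy⟩

/-- **Algebraicity of the analytic value + the value at the place**: for a nice `f` with analytic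
incarnation `g`, the number `g τ` is `ι c` for a (unique) `c ∈ ℚbar`, and `c` is the value of `f` at
`placeAt N τ a ha`. -/
theorem exists_value_of_isNice (h : IsNice N f g) (τ : ℍ) (a : Kbar) (ha : jFun τ = iotaK a) :
    ∃ c : Kbar, g τ = iotaK c ∧ IsVal (placeAt N τ a ha) (⟨f, mem_of_isNice h⟩ : FF N) c := by
  obtain ⟨c, hc⟩ := exists_isVal_of_mem (placeAt N τ a ha) (mem_placeAt_of_isNice h τ a ha)
  exact ⟨c, (isVal_iff_of_isNice h τ a ha c).mp hc, hc⟩

end Nice

/-! ### elements of `R` -/

/-- the value of `u ∈ R = ℚbar[j_d]` at a point place is the value of its realisation. -/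
theorem isVal_coe_iff (u : Rsub N) (τ : ℍ) (a : Kbar) (ha : jFun τ = iotaK a) (c : Kbar) :
    IsVal (placeAt N τ a ha) (u : FF N) c ↔ realize N u τ = iotaK c :=
  isVal_iff_of_isNice (isNice_of_Rsub u) τ a ha c

theorem exists_value_coe (u : Rsub N) (τ : ℍ) (a : Kbar) (ha : jFun τ = iotaK a) :
    ∃ c : Kbar, realize N u τ = iotaK c ∧ IsVal (placeAt N τ a ha) (u : FF N) c :=
  exists_value_of_isNice (isNice_of_Rsub u) τ a ha

end Fermat.Agent.MAZ.BR3_52
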