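/-
Programme MAZ (S15), moduli side (report 1112), brick **BR3** (helper52), file 2: the three values
used by the moduli argument, at the place `x = placeAt p τ a ha` of `X₀(p)` cut out by `τ ∈ ℍ`
(`j(τ) = ι a`):

* `isVal_jL`            : `j(x) = a`                         (`jL` of helper34's `RedFibre34`);
* `exists_isVal_jpL`    : `j_p(x) = b` with `ι b = j(p τ)`    (`jpL`; `b` exists: algebraicity is automatic);
* `exists_isVal_uqInv`  : `u(x) = U ≠ 0` with `ι U = Δ(τ)/Δ(pτ)`, `u = uqInv p = Δ(q)/Δ(q^p)`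
                          (`RED/BASE/DeltaMem19`);
plus the `iff` forms `isVal_jpL_iff`, `isVal_uqInv_iff`.
-/
import Mathlib
import Fermat.Agent.MAZ.BR3_52.Value
import Fermat.Agent.MAZ.RedFibre34.Main
import Fermat.Agent.RED.BASE.DeltaMem19

set_option autoImplicit false
set_option linter.unusedSectionVars false

open UpperHalfPlane AlgebraicCurve ModularCurve
open scoped MatrixGroups

noncomputable section

namespace Fermat.Agent.MAZ.BR3_52

open Fermat.Agent.X0 Fermat.Agent.RED.BASE.QExpMem19 Fermat.Agent.RED.BASE.DeltaMem19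
  Fermat.Agent.MW.Bridge34 Fermat.Agent.MAZ.RedFibre34

variable (p : ℕ) [NeZero p]

/-! ### identification of helper34's `jL`, `jpL` with the X0 generators -/

theorem coe_jdF_eq (N d : ℕ) [NeZero N] [NeZero d] (hd : d ∣ N) :
    ((jdF N d hd : FF N) : LaurentSeries Kbar) = jqNModC Kbar d := by
  rw [FracR.coe_jdF, coeffEmb, ← jqModC_rat]
  show coeffMap (algebraMap ℚ Kbar) (qExpand ℚ d (jqModC ℚ)) = _
  rw [coeffMap_qExpand, coeffMap_jqModC, jqNModC]

theorem jL_eq_jF : jL Kbar p = jF p := by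
  apply Subtype.ext
  show jqModC Kbar = ((jdF p 1 (one_dvd p) : FF p) : LaurentSeries Kbar)
  rw [coe_jdF_eq, jqNModC_one]

theorem jpL_eq_jdF : jpL Kbar p = jdF p p dvd_rfl := by
  apply Subtype.ext
  show jqNModC Kbar p = ((jdF p p dvd_rfl : FF p) : LaurentSeries Kbar)
  rw [coe_jdF_eq]

variable {p} {τ : ℍ} {a : Kbar} {ha : jFun τ = iotaK a}

/-! ### `j` -/

/-- `j(x) = a`. -/
theorem isVal_jL : IsVal (placeAt p τ a ha) (jL Kbar p) a := by
  rw [jL_eq_jF, isVal_iff_ord]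
  exact Or.inr ord_jF_sub_pos

theorem isVal_jF (N : ℕ) [NeZero N] {τ : ℍ} {a : Kbar} {ha : jFun τ = iotaK a} :
    IsVal (placeAt N τ a ha) (jF N) a := by
  rw [isVal_iff_ord]
  exact Or.inr ord_jF_sub_pos

/-! ### `j_d` -/

theorem realize_jdR (N d : ℕ) [NeZero N] [NeZero d] (hd : d ∣ N) :
    realize N (jdR N d hd) = jdFun d := (realizeData N).jd_eq d hd

/-- `j_d(x) = c ↔ j(d τ) = ι c`. -/
theorem isVal_jdF_iff (N d : ℕ) [NeZero N] [NeZero d] (hd : d ∣ N) (τ : ℍ) (a : Kbar)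
    (ha : jFun τ = iotaK a) (c : Kbar) :
    IsVal (placeAt N τ a ha) (jdF N d hd) c ↔ jFun (scaleH d τ) = iotaK c := by
  have h := isVal_coe_iff (jdR N d hd) τ a ha c
  rw [realize_jdR] at h
  exact h

/-- `j_d(x)` exists and is `ι⁻¹ (j(d τ))`: in particular `j(d τ)` is algebraic. -/
theorem exists_isVal_jdF (N d : ℕ) [NeZero N] [NeZero d] (hd : d ∣ N) (τ : ℍ) (a : Kbar)
    (ha : jFun τ = iotaK a) :
    ∃ b : Kbar, jFun (scaleH d τ) = iotaK b ∧ IsVal (placeAt N τ a ha) (jdF N d hd) b := by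
  obtain ⟨b, hb, hv⟩ := exists_value_coe (jdR N d hd) τ a ha
  rw [realize_jdR] at hb
  exact ⟨b, hb, hv⟩

/-- `j_p(x) = b ↔ j(p τ) = ι b`. -/
theorem isVal_jpL_iff (τ : ℍ) (a : Kbar) (ha : jFun τ = iotaK a) (b : Kbar) :
    IsVal (placeAt p τ a ha) (jpL Kbar p) b ↔ jFun (scaleH p τ) = iotaK b := by
  rw [jpL_eq_jdF]
  exact isVal_jdF_iff p p dvd_rfl τ a ha b

/-- **`j_p(x) = b` with `ι b = j(p τ)`.** -/
theorem exists_isVal_jpL (τ : ℍ) (a : Kbar) (ha : jFun τ = iotaK a) :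
    ∃ b : Kbar, jFun (scaleH p τ) = iotaK b ∧ IsVal (placeAt p τ a ha) (jpL Kbar p) b := by
  rw [jpL_eq_jdF]
  exact exists_isVal_jdF p p dvd_rfl τ a ha

/-! ### the modular unit `u = Δ(q)/Δ(q^p)` -/

local notation "Δ" => ModularForm.discriminant

variable (p) in
/-- `u = Δ(q)/Δ(q^p)` as an element of the function field of `X₀(p)`. -/
def uF : FF p := ⟨uqInv p Kbar, uqInv_mem p dvd_rfl⟩

theorem uF_eq : uF p = ⟨uqInv p Kbar, mem_of_isNice (isNice_deltaQuotInv p)⟩ := rfl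

/-- `u(x) = U ↔ Δ(τ)/Δ(pτ) = ι U`. -/
theorem isVal_uF_iff (τ : ℍ) (a : Kbar) (ha : jFun τ = iotaK a) (U : Kbar) :
    IsVal (placeAt p τ a ha) (uF p) U ↔ Δ τ / Δ (scaleH p τ) = iotaK U :=
  isVal_iff_of_isNice (isNice_deltaQuotInv p) τ a ha U

/-- **`u(x) = U ≠ 0` with `ι U = Δ(τ)/Δ(pτ)`.** -/
theorem exists_isVal_uF (τ : ℍ) (a : Kbar) (ha : jFun τ = iotaK a) :
    ∃ U : Kbar, U ≠ 0 ∧ Δ τ / Δ (scaleH p τ) = iotaK U ∧ IsVal (placeAt p τ a ha) (uF p) U := by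
  obtain ⟨U, hU, hv⟩ := exists_value_of_isNice (isNice_deltaQuotInv p) τ a ha
  refine ⟨U, ?_, hU, hv⟩
  rintro rfl
  rw [map_zero] at hU
  have h1 := deltaQuotInv_mul_deltaQuot p τ
  have h2 : deltaQuotInv p τ = 0 := hU
  rw [h2, zero_mul] at h1
  exact zero_ne_one h1

end Fermat.Agent.MAZ.BR3_52
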